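import Mathlib

/-!
# S56 / Font / FL : abstract ultrametric part of Fontaine's lifting lemma

`𝒜` a commutative ring with a family of "balls" `B γ` (`γ` in a linearly ordered group with zero),
`ϖ = |p|`.  Two statements:

* `UBound.rig` (rigidity) : `|x| ≤ τ₀`, `τ₀ ^ (p - 1) < ϖ`, `|(1 + x) ^ p - 1| ≤ ϖ τ` ⟹ `|x| ≤ τ`;
* `UBound.exists_root` (approximate `p`-th roots, Newton iteration without inverses).
-/

set_option autoImplicit false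

namespace Fermat.Agent.S56.Font

variable {𝒜 : Type*} [CommRing 𝒜] {Γ₀ : Type*} [LinearOrderedCommGroupWithZero Γ₀]

/-- an ultrametric, submultiplicative family of balls on a commutative ring; `ϖ` is the size of
`p`. -/
structure UBound (B : Γ₀ → 𝒜 → Prop) (p : ℕ) (ϖ : Γ₀) : Prop where
  zero : ∀ γ, B γ 0
  add : ∀ γ x y, B γ x → B γ y → B γ (x + y)
  neg : ∀ γ x, B γ x → B γ (-x)
  mono : ∀ γ δ x, γ ≤ δ → B γ x → B δ x
  mul : ∀ γ δ x y, B γ x → B δ y → B (γ * δ) (x * y)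
  one : B 1 1
  p_iff : ∀ γ x, B (ϖ * γ) ((p : 𝒜) * x) ↔ B γ x

namespace UBound

variable {B : Γ₀ → 𝒜 → Prop} {p : ℕ} {ϖ : Γ₀} (h : UBound B p ϖ)

include h

theorem sub {γ : Γ₀} {x y : 𝒜} (hx : B γ x) (hy : B γ y) : B γ (x - y) := by
  rw [sub_eq_add_neg]; exact h.add _ _ _ hx (h.neg _ _ hy)

theorem sum {ι : Type*} (s : Finset ι) (f : ι → 𝒜) {γ : Γ₀} (hf : ∀ i ∈ s, B γ (f i)) :
    B γ (∑ i ∈ s, f i) := by
  classical
  induction s using Finset.induction_on with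
  | empty => simpa using h.zero γ
  | insert a s ha ih =>
    rw [Finset.sum_insert ha]
    exact h.add _ _ _ (hf a (Finset.mem_insert_self a s))
      (ih fun i hi => hf i (Finset.mem_insert_of_mem hi))

theorem natCast_mul {γ : Γ₀} (n : ℕ) {x : 𝒜} (hx : B γ x) : B γ ((n : 𝒜) * x) := by
  induction n with
  | zero => simpa using h.zero γ
  | succ n ih =>
    rw [Nat.cast_succ, add_mul, one_mul]
    exact h.add _ _ _ ih hx

theorem pow {γ : Γ₀} {x : 𝒜} (hx : B γ x) (n : ℕ) : B (γ ^ n) (x ^ n) := by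
  induction n with
  | zero => simpa using h.one
  | succ n ih =>
    rw [pow_succ, pow_succ]
    exact h.mul _ _ _ _ ih hx

theorem mul_left_one {γ : Γ₀} {x y : 𝒜} (hx : B 1 x) (hy : B γ y) : B γ (x * y) := by
  simpa using h.mul _ _ _ _ hx hy

theorem mul_right_one {γ : Γ₀} {x y : 𝒜} (hx : B γ x) (hy : B 1 y) : B γ (x * y) := by
  simpa using h.mul _ _ _ _ hx hy

theorem pow_unit {x : 𝒜} (hx : B 1 x) (n : ℕ) : B 1 (x ^ n) := by
  simpa using h.pow hx n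

/-- `1 + x` is in the unit ball if `x` is in a ball of radius `≤ 1`. -/
theorem one_add {γ : Γ₀} (hγ : γ ≤ 1) {x : 𝒜} (hx : B γ x) : B 1 (1 + x) :=
  h.add _ _ _ h.one (h.mono _ _ _ hγ hx)

/-- the error term `(1 + x) ^ p - 1 - p x`. -/
theorem err (hp : p.Prime) {γ : Γ₀} (hγ : γ ≤ 1) {x : 𝒜} (hx : B γ x) :
    B (max (ϖ * γ ^ 2) (γ ^ p)) ((1 + x) ^ p - 1 - (p : 𝒜) * x) := by
  classical
  have h1 : (1 + x) ^ p - 1 - (p : 𝒜) * x = ∑ m ∈ Finset.range (p + 1),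
      (x ^ m * (p.choose m : 𝒜) - (if m = 0 then 1 else 0) - (if m = 1 then (p : 𝒜) * x else 0)) := by
    rw [Finset.sum_sub_distrib, Finset.sum_sub_distrib, Finset.sum_ite_eq', Finset.sum_ite_eq',
      if_pos (Finset.mem_range.2 (Nat.succ_pos p)),
      if_pos (Finset.mem_range.2 (Nat.succ_lt_succ hp.pos)), add_comm 1 x, add_pow]
    simp
  rw [h1]
  refine h.sum _ _ fun m hm => ?_
  have hm' : m ≤ p := Nat.lt_succ_iff.1 (Finset.mem_range.1 hm)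
  rcases Nat.lt_or_ge m 2 with h2 | h2
  · interval_cases m
    · simpa using h.zero _
    · simp only [_root_.pow_one, Nat.choose_one_right, one_ne_zero, if_false, sub_zero, if_true]
      rw [mul_comm x, sub_self]
      exact h.zero _
  · have hm0 : m ≠ 0 := by omega
    have hm1 : m ≠ 1 := by omega
    rw [if_neg hm0, if_neg hm1, sub_zero, sub_zero]
    rcases Nat.lt_or_ge m p with h3 | h3
    · obtain ⟨c, hc⟩ := hp.dvd_choose_self hm0 h3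
      refine h.mono _ _ _ (le_max_left _ _) ?_
      have h4 : x ^ m * (p.choose m : 𝒜) = (p : 𝒜) * ((c : 𝒜) * x ^ m) := by
        rw [hc]; push_cast; ring
      rw [h4, h.p_iff]
      refine h.natCast_mul c (h.mono _ _ _ ?_ (h.pow hx m))
      exact pow_le_pow_right_of_le_one' hγ h2
    · have : m = p := le_antisymm hm' h3
      subst this
      refine h.mono _ _ _ (le_max_right _ _) ?_
      simpa using h.pow hx m

/-- the contraction factor. -/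
def kap (ϖ τ₀ : Γ₀) (p : ℕ) : Γ₀ := max τ₀ (τ₀ ^ (p - 1) * ϖ⁻¹)

omit h in
theorem le_kap (ϖ τ₀ : Γ₀) (p : ℕ) : τ₀ ≤ kap ϖ τ₀ p := le_max_left _ _

omit h in
theorem lt_one_of_pow_lt {τ₀ : Γ₀} (hϖ1 : ϖ ≤ 1) (hτ : τ₀ ^ (p - 1) < ϖ) :
    τ₀ < 1 := by
  by_contra hcon
  have h1 : (1 : Γ₀) ≤ τ₀ := not_lt.1 hcon
  have h2 : (1 : Γ₀) ≤ τ₀ ^ (p - 1) := one_le_pow_of_one_le' h1 _
  exact absurd (lt_of_le_of_lt h2 hτ) (not_lt.2 hϖ1)

omit h in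
theorem kap_lt_one {τ₀ : Γ₀} (hϖ0 : ϖ ≠ 0) (hϖ1 : ϖ ≤ 1)
    (hτ : τ₀ ^ (p - 1) < ϖ) : kap ϖ τ₀ p < 1 := by
  refine max_lt (lt_one_of_pow_lt hϖ1 hτ) ?_
  rw [← mul_inv_cancel₀ hϖ0]
  exact mul_lt_mul_of_pos_right hτ (by simpa [zero_lt_iff] using hϖ0)

omit h in
/-- the two error terms are `≤ ϖ γ κ`. -/
theorem err_le (hp : p.Prime) {τ₀ γ : Γ₀} (hϖ0 : ϖ ≠ 0) (hγ : γ ≤ τ₀) :
    max (ϖ * γ ^ 2) (γ ^ p) ≤ ϖ * (γ * kap ϖ τ₀ p) := by
  refine max_le ?_ ?_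
  · rw [pow_two]
    exact mul_le_mul_right (mul_le_mul_right (hγ.trans (le_kap _ _ _)) _) _
  · have h1 : γ ^ p = γ * γ ^ (p - 1) := by
      rw [← pow_succ', Nat.sub_add_cancel hp.one_le]
    have h2 : γ ^ (p - 1) ≤ ϖ * kap ϖ τ₀ p := by
      calc γ ^ (p - 1) ≤ τ₀ ^ (p - 1) := pow_le_pow_left' hγ _
        _ = ϖ * (τ₀ ^ (p - 1) * ϖ⁻¹) := by
          rw [mul_comm (τ₀ ^ (p - 1)), ← mul_assoc, mul_inv_cancel₀ hϖ0, one_mul]
        _ ≤ ϖ * kap ϖ τ₀ p := mul_le_mul_right (le_max_right _ _) _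
    calc γ ^ p = γ * γ ^ (p - 1) := h1
      _ ≤ γ * (ϖ * kap ϖ τ₀ p) := mul_le_mul_right h2 _
      _ = ϖ * (γ * kap ϖ τ₀ p) := by rw [mul_left_comm]

/-- one step of the rigidity argument. -/
theorem rig_step (hp : p.Prime) {τ₀ τ γ : Γ₀} (hϖ0 : ϖ ≠ 0) (hτ1 : τ₀ ≤ 1)
    (hγ : γ ≤ τ₀) {x : 𝒜} (hx : B γ x) (hxp : B (ϖ * τ) ((1 + x) ^ p - 1)) :
    B (max τ (γ * kap ϖ τ₀ p)) x := by
  rw [← h.p_iff]
  have h1 : (p : 𝒜) * x = ((1 + x) ^ p - 1) - ((1 + x) ^ p - 1 - (p : 𝒜) * x) := by ring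
  rw [h1]
  refine h.sub (h.mono _ _ _ (mul_le_mul_right (le_max_left _ _) _) hxp) ?_
  refine h.mono _ _ _ ?_ (h.err hp (hγ.trans hτ1) hx)
  exact (err_le hp hϖ0 hγ).trans (mul_le_mul_right (le_max_right _ _) _)

/-- **Rigidity.** -/
theorem rig (hp : p.Prime) (harch : ∀ g : Γ₀, g < 1 → ∀ d : Γ₀, d ≠ 0 → ∃ n : ℕ, g ^ n ≤ d)
    {τ₀ τ : Γ₀} (hϖ0 : ϖ ≠ 0) (hϖ1 : ϖ ≤ 1) (hτ₀ : τ₀ ^ (p - 1) < ϖ) (hτ : τ ≠ 0)
    {x : 𝒜} (hx : B τ₀ x) (hxp : B (ϖ * τ) ((1 + x) ^ p - 1)) : B τ x := by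
  have hτ1 : τ₀ ≤ 1 := (lt_one_of_pow_lt hϖ1 hτ₀).le
  have hκ : kap ϖ τ₀ p < 1 := kap_lt_one hϖ0 hϖ1 hτ₀
  rcases le_total τ₀ τ with hle | hle
  · exact h.mono _ _ _ hle hx
  have key : ∀ n : ℕ, B (max τ (τ₀ * kap ϖ τ₀ p ^ n)) x := by
    intro n
    induction n with
    | zero => exact h.mono _ _ _ (by simp) hx
    | succ n ih =>
      have hγ : max τ (τ₀ * kap ϖ τ₀ p ^ n) ≤ τ₀ :=
        max_le hle (by simpa using mul_le_mul_right (pow_le_one' hκ.le n) τ₀)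
      refine h.mono _ _ _ ?_ (h.rig_step hp hϖ0 hτ1 hγ ih hxp)
      refine max_le (le_max_left _ _) ?_
      rcases le_total τ (τ₀ * kap ϖ τ₀ p ^ n) with h1 | h1
      · rw [max_eq_right h1, mul_assoc, ← pow_succ]
        exact le_max_right _ _
      · rw [max_eq_left h1]
        exact le_trans (by simpa using mul_le_mul_right hκ.le τ) (le_max_left _ _)
  obtain ⟨n, hn⟩ := harch _ hκ τ hτ
  refine h.mono _ _ _ (max_le le_rfl ?_) (key n)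
  calc τ₀ * kap ϖ τ₀ p ^ n ≤ 1 * kap ϖ τ₀ p ^ n := mul_le_mul_left hτ1 _
    _ = kap ϖ τ₀ p ^ n := one_mul _
    _ ≤ τ := hn

/-- **Approximate `p`-th roots** (Newton iteration without inverses): if `|y - 1| ≤ ϖ τ₀` then
for every `n` there is `u` with `|u - 1| ≤ τ₀` and `|u ^ p y - 1| ≤ ϖ τ₀ κ ^ n`. -/
theorem exists_root (hp : p.Prime) (hdiv : ∀ e : 𝒜, ∃ e', (p : 𝒜) * e' = e)
    {τ₀ : Γ₀} (hϖ0 : ϖ ≠ 0) (hϖ1 : ϖ ≤ 1) (hτ₀ : τ₀ ^ (p - 1) < ϖ)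
    {y : 𝒜} (hy : B (ϖ * τ₀) (y - 1)) (n : ℕ) :
    ∃ u : 𝒜, B τ₀ (u - 1) ∧ B (ϖ * (τ₀ * kap ϖ τ₀ p ^ n)) (u ^ p * y - 1) := by
  have hτ1 : τ₀ ≤ 1 := (lt_one_of_pow_lt hϖ1 hτ₀).le
  have hκ : kap ϖ τ₀ p < 1 := kap_lt_one hϖ0 hϖ1 hτ₀
  induction n with
  | zero => exact ⟨1, by simpa using h.zero τ₀, by simpa using hy⟩
  | succ n ih =>
    obtain ⟨u, hu1, hu2⟩ := ih
    set γ : Γ₀ := τ₀ * kap ϖ τ₀ p ^ n with hγdef
    have hγ : γ ≤ τ₀ := by simpa using mul_le_mul_right (pow_le_one' hκ.le n) τ₀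
    set e : 𝒜 := u ^ p * y - 1 with he
    obtain ⟨e', he'⟩ := hdiv e
    have hBe' : B γ e' := by rw [← h.p_iff, he']; exact hu2
    have hBd : B γ (-e') := h.neg _ _ hBe'
    have hBu : B 1 u := by
      have := h.one_add hτ1 hu1
      simpa using this
    refine ⟨u * (1 + -e'), ?_, ?_⟩
    · have h1 : u * (1 + -e') - 1 = (u - 1) + u * (-e') := by ring
      rw [h1]
      exact h.add _ _ _ hu1 (h.mono _ _ _ hγ (h.mul_left_one hBu hBd))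
    · have h1 : (u * (1 + -e')) ^ p * y - 1
          = -(e * e) + (1 + e) * ((1 + -e') ^ p - 1 - (p : 𝒜) * (-e')) := by
        have h2 : u ^ p * y = 1 + e := by rw [he]; ring
        have h3 : (p : 𝒜) * (-e') = -e := by rw [mul_neg, he']
        rw [h3, mul_pow, mul_right_comm, h2]
        ring
      rw [h1, pow_succ, ← mul_assoc τ₀, ← hγdef]
      have hϖγ : ϖ * γ ≤ 1 := by
        calc ϖ * γ ≤ 1 * 1 := mul_le_mul' hϖ1 (hγ.trans hτ1)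
          _ = 1 := one_mul 1
      refine h.add _ _ _ (h.neg _ _ ?_) ?_
      · refine h.mono _ _ _ ?_ (h.mul _ _ _ _ hu2 hu2)
        rw [mul_assoc]
        refine mul_le_mul_right ?_ _
        refine mul_le_mul_right ?_ _
        calc ϖ * γ ≤ 1 * γ := mul_le_mul_left hϖ1 _
          _ = γ := one_mul _
          _ ≤ kap ϖ τ₀ p := hγ.trans (le_kap _ _ _)
      · refine h.mul_left_one (h.one_add hϖγ hu2) ?_
        exact h.mono _ _ _ (err_le hp hϖ0 hγ) (h.err hp (hγ.trans hτ1) hBd)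

/-- `|z - 1| ≤ γ`, `|z| ≤ 1` ⟹ `|z ^ n - 1| ≤ γ`. -/
theorem pow_sub_one {γ : Γ₀} {z : 𝒜} (hz : B 1 z) (hz1 : B γ (z - 1)) (n : ℕ) :
    B γ (z ^ n - 1) := by
  induction n with
  | zero => simpa using h.zero γ
  | succ n ih =>
    have h1 : z ^ (n + 1) - 1 = z ^ n * (z - 1) + (z ^ n - 1) := by ring
    rw [h1]
    exact h.add _ _ _ (h.mul_left_one (h.pow_unit hz n) hz1) ih

/-- **Rigidity for pairs**: two elements of the unit ball which are `τ₀`-close and whose `p`-th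
powers are `ϖ t`-close to `1` are `t`-close. -/
theorem rig_pair (hp : p.Prime)
    (harch : ∀ g : Γ₀, g < 1 → ∀ d : Γ₀, d ≠ 0 → ∃ n : ℕ, g ^ n ≤ d)
    {τ₀ t : Γ₀} (hϖ0 : ϖ ≠ 0) (hϖ1 : ϖ ≤ 1) (hτ₀ : τ₀ ^ (p - 1) < ϖ) (ht : t ≠ 0) (htτ : t ≤ τ₀)
    {D P : 𝒜} (hD : B 1 D) (hP : B 1 P) (hDP : B τ₀ (D - P))
    (hDp : B (ϖ * t) (D ^ p - 1)) (hPp : B (ϖ * t) (P ^ p - 1)) : B t (D - P) := by
  have hϖt : ϖ * t ≤ t := by simpa using mul_le_mul_left hϖ1 t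
  have hPP : P * P ^ (p - 1) = P ^ p := by rw [← pow_succ', Nat.sub_add_cancel hp.one_le]
  have hx1 : D * P ^ (p - 1) - 1 = (D - P) * P ^ (p - 1) + (P ^ p - 1) := by
    rw [sub_mul, hPP]; ring
  have hBx : B τ₀ (D * P ^ (p - 1) - 1) := by
    rw [hx1]
    exact h.add _ _ _ (h.mul_right_one hDP (h.pow_unit hP _)) (h.mono _ _ _ (hϖt.trans htτ) hPp)
  have hx2 : (1 + (D * P ^ (p - 1) - 1)) ^ p - 1
      = (D ^ p - 1) * (P ^ p) ^ (p - 1) + ((P ^ p) ^ (p - 1) - 1) := by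
    have h1 : 1 + (D * P ^ (p - 1) - 1) = D * P ^ (p - 1) := by ring
    rw [h1, mul_pow, ← pow_mul, ← pow_mul, mul_comm (p - 1) p]; ring
  have hBxp : B (ϖ * t) ((1 + (D * P ^ (p - 1) - 1)) ^ p - 1) := by
    rw [hx2]
    exact h.add _ _ _ (h.mul_right_one hDp (h.pow_unit (h.pow_unit hP _) _))
      (h.pow_sub_one (h.pow_unit hP _) hPp _)
  have hxt : B t (D * P ^ (p - 1) - 1) := h.rig hp harch hϖ0 hϖ1 hτ₀ ht hBx hBxp
  have hfin : D - P = -(D * (P ^ p - 1)) + (D * P ^ (p - 1) - 1) * P := by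
    rw [sub_mul, mul_assoc, mul_comm (P ^ (p - 1)) P, hPP]; ring
  rw [hfin]
  exact h.add _ _ _ (h.neg _ _ (h.mono _ _ _ hϖt (h.mul_left_one hD hPp)))
    (h.mul_right_one hxt hP)

end UBound

end Fermat.Agent.S56.Font
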