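import Fermat.Agent.S56.Font.FL.Abs

/-!
# S56 / Font / FL : the group algebra as the convolution algebra of a function order

`M` a finite commutative (additive) monoid, `Ω` a valued field, `𝓗` a set of functions `M → Ω`.
An element `f` of the group algebra `Ω[M]` is a functional on functions: `pr f a = ∑ m, f m * a m`.
`Bd v 𝓗 γ f` : `|pr f a| ≤ γ` for all `a ∈ 𝓗`.  If `𝓗` is stable under comultiplication this is an
ultrametric submultiplicative family of balls (`UBound`).
-/

set_option autoImplicit false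

namespace Fermat.Agent.S56.Font

open AddMonoidAlgebra

variable {Ω : Type} [Field Ω] {Γ₀ : Type} [LinearOrderedCommGroupWithZero Γ₀]

section pr

variable {M : Type} [Fintype M]

/-- the pairing between the group algebra and functions. -/
noncomputable def pr (f : AddMonoidAlgebra Ω M) (a : M → Ω) : Ω := ∑ m, f.coeff m * a m

@[simp] theorem pr_zero (a : M → Ω) : pr (0 : AddMonoidAlgebra Ω M) a = 0 := by simp [pr]

theorem pr_add (f g : AddMonoidAlgebra Ω M) (a : M → Ω) : pr (f + g) a = pr f a + pr g a := by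
  simp [pr, add_mul, Finset.sum_add_distrib]

theorem pr_neg (f : AddMonoidAlgebra Ω M) (a : M → Ω) : pr (-f) a = -pr f a := by
  have h := pr_add f (-f) a
  rw [add_neg_cancel, pr_zero] at h
  exact (neg_eq_of_add_eq_zero_right h.symm).symm

theorem pr_sub (f g : AddMonoidAlgebra Ω M) (a : M → Ω) : pr (f - g) a = pr f a - pr g a := by
  rw [sub_eq_add_neg, pr_add, pr_neg, sub_eq_add_neg]

theorem pr_single (m : M) (r : Ω) (a : M → Ω) : pr (single m r) a = r * a m := by
  classical
  unfold pr
  rw [Finset.sum_eq_single m]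
  · simp
  · intro b _ hb
    rw [coeff_single, Finsupp.single_apply, if_neg (Ne.symm hb), zero_mul]
  · intro h; exact absurd (Finset.mem_univ m) h

theorem pr_add_right (f : AddMonoidAlgebra Ω M) (a b : M → Ω) :
    pr f (a + b) = pr f a + pr f b := by
  simp [pr, mul_add, Finset.sum_add_distrib]

theorem pr_sub_right (f : AddMonoidAlgebra Ω M) (a b : M → Ω) :
    pr f (a - b) = pr f a - pr f b := by
  simp [pr, mul_sub, Finset.sum_sub_distrib]

@[simp] theorem pr_zero_right (f : AddMonoidAlgebra Ω M) : pr f (0 : M → Ω) = 0 := by simp [pr]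

theorem pr_sum_left {ι : Type*} (s : Finset ι) (f : ι → AddMonoidAlgebra Ω M) (a : M → Ω) :
    pr (∑ i ∈ s, f i) a = ∑ i ∈ s, pr (f i) a := by
  classical
  induction s using Finset.induction_on with
  | empty => simp
  | insert x s hx ih => rw [Finset.sum_insert hx, Finset.sum_insert hx, pr_add, ih]

theorem pr_sum_right {ι : Type*} (s : Finset ι) (f : AddMonoidAlgebra Ω M) (a : ι → M → Ω) :
    pr f (∑ i ∈ s, a i) = ∑ i ∈ s, pr f (a i) := by
  unfold pr
  rw [Finset.sum_comm]
  refine Finset.sum_congr rfl fun m _ => ?_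
  rw [Finset.sum_apply, Finset.mul_sum]

theorem pr_smul_right (f : AddMonoidAlgebra Ω M) (r : Ω) (a : M → Ω) :
    pr f (r • a) = r * pr f a := by
  unfold pr
  rw [Finset.mul_sum]
  refine Finset.sum_congr rfl fun m _ => ?_
  simp only [Pi.smul_apply, smul_eq_mul]
  ring

theorem pr_mul [AddCommMonoid M] {ι : Type} [Fintype ι] (a : M → Ω) (b c : ι → M → Ω)
    (h : ∀ x y, a (x + y) = ∑ i, b i x * c i y) (f g : AddMonoidAlgebra Ω M) :
    pr (f * g) a = ∑ i, pr f (b i) * pr g (c i) := by
  induction f using AddMonoidAlgebra.induction_linear with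
  | zero => simp
  | add f₁ f₂ h₁ h₂ =>
    rw [add_mul, pr_add, h₁, h₂, ← Finset.sum_add_distrib]
    refine Finset.sum_congr rfl fun i _ => ?_
    rw [pr_add, add_mul]
  | single x r =>
    induction g using AddMonoidAlgebra.induction_linear with
    | zero => simp
    | add g₁ g₂ h₁ h₂ =>
      rw [mul_add, pr_add, h₁, h₂, ← Finset.sum_add_distrib]
      refine Finset.sum_congr rfl fun i _ => ?_
      rw [pr_add, mul_add]
    | single y s =>
      rw [single_mul_single, pr_single, h, Finset.mul_sum]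
      refine Finset.sum_congr rfl fun i _ => ?_
      rw [pr_single, pr_single]
      ring

theorem pr_one [AddCommMonoid M] (a : M → Ω) : pr (1 : AddMonoidAlgebra Ω M) a = a 0 := by
  rw [one_def, pr_single, one_mul]

theorem pr_natCast_mul [AddCommMonoid M] (n : ℕ) (f : AddMonoidAlgebra Ω M) (a : M → Ω) :
    pr ((n : AddMonoidAlgebra Ω M) * f) a = (n : Ω) * pr f a := by
  induction n with
  | zero => simp
  | succ n ih => rw [Nat.cast_succ, add_mul, one_mul, pr_add, ih, Nat.cast_succ, add_mul, one_mul]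

theorem pr_mapDomain {N : Type} [Fintype N] [AddCommMonoid M] [AddCommMonoid N] (φ : M →+ N)
    (f : AddMonoidAlgebra Ω M) (a : N → Ω) :
    pr (mapDomainRingHom Ω φ f) a = pr f (a ∘ φ) := by
  induction f using AddMonoidAlgebra.induction_linear with
  | zero => simp
  | add f₁ f₂ h₁ h₂ => rw [map_add, pr_add, h₁, h₂, pr_add]
  | single x r => simp [pr_single]

end pr

section bd

variable {M : Type} [Fintype M] [AddCommMonoid M] (v : Valuation Ω Γ₀)

/-- a set of functions stable under comultiplication, with integral values at `0`. -/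
structure IsCoOrder (𝓗 : Set (M → Ω)) : Prop where
  int0 : ∀ a ∈ 𝓗, v (a 0) ≤ 1
  comul : ∀ a ∈ 𝓗, ∃ (ι : Type) (_ : Fintype ι) (b c : ι → M → Ω),
    (∀ i, b i ∈ 𝓗) ∧ (∀ i, c i ∈ 𝓗) ∧ ∀ x y, a (x + y) = ∑ i, b i x * c i y

/-- the ball of radius `γ` of the group algebra (dual norm of `𝓗`). -/
def Bd (𝓗 : Set (M → Ω)) (γ : Γ₀) (f : AddMonoidAlgebra Ω M) : Prop :=
  ∀ a ∈ 𝓗, v (pr f a) ≤ γ

variable {v}

theorem IsCoOrder.uBound {𝓗 : Set (M → Ω)} (h : IsCoOrder v 𝓗) (p : ℕ) (hp0 : v (p : Ω) ≠ 0) :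
    UBound (Bd v 𝓗) p (v (p : Ω)) where
  zero γ a _ := by simp
  add γ x y hx hy a ha := by
    rw [pr_add]; exact v.map_add_le (hx a ha) (hy a ha)
  neg γ x hx a ha := by
    rw [pr_neg, Valuation.map_neg]; exact hx a ha
  mono γ δ x hγ hx a ha := (hx a ha).trans hγ
  mul γ δ x y hx hy a ha := by
    obtain ⟨ι, _, b, c, hb, hc, hbc⟩ := h.comul a ha
    rw [pr_mul a b c hbc]
    refine v.map_sum_le fun i _ => ?_
    rw [map_mul]
    exact mul_le_mul' (hx _ (hb i)) (hy _ (hc i))
  one a ha := by rw [pr_one]; exact h.int0 a ha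
  p_iff γ x := by
    constructor
    · intro hx a ha
      have := hx a ha
      rw [pr_natCast_mul, map_mul] at this
      exact (mul_le_mul_iff_right₀ (zero_lt_iff.2 hp0)).1 this
    · intro hx a ha
      rw [pr_natCast_mul, map_mul]
      exact mul_le_mul_right (hx a ha) _

omit [Fintype M] in
theorem exists_natCast_mul_eq {p : ℕ} (hp0 : (p : Ω) ≠ 0) (e : AddMonoidAlgebra Ω M) :
    ∃ e', (p : AddMonoidAlgebra Ω M) * e' = e := by
  refine ⟨(p : Ω)⁻¹ • e, ?_⟩
  rw [← map_natCast (algebraMap Ω (AddMonoidAlgebra Ω M)) p, ← Algebra.smul_def, smul_smul,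
    mul_inv_cancel₀ hp0, one_smul]

end bd

end Fermat.Agent.S56.Font
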